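import Mathlib
import Fermat.Prelude.Def_EllipticCurve_FrobeniusTrace

set_option autoImplicit false

namespace Fermat.Agent.S54.Frob95

open Polynomial
open scoped Pointwise

section Key

variable {L : Type*} [Field L]

theorem mem_of_isIntegral (V : ValuationSubring L) {x : L} (hx : IsIntegral ℤ x) : x ∈ V := by
  have h : IsIntegral V x := hx.tower_top
  obtain ⟨y, rfl⟩ := IsIntegrallyClosed.isIntegral_iff.mp h
  exact y.2

theorem not_mem_nonunits_add (V : ValuationSubring L) {a b : L}
    (ha' : a ∉ V.nonunits) (hb : b ∈ V.nonunits) : a + b ∉ V.nonunits := by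
  intro h
  apply ha'
  rw [ValuationSubring.mem_nonunits_iff] at *
  have : a = (a + b) + (-b) := by ring
  rw [this]
  refine lt_of_le_of_lt (Valuation.map_add _ _ _) (max_lt h ?_)
  rwa [Valuation.map_neg]

theorem mul_mem_nonunits (V : ValuationSubring L) {a b : L} (ha : a ∈ V.nonunits) (hb : b ∈ V) :
    a * b ∈ V.nonunits := by
  rw [ValuationSubring.mem_nonunits_iff] at *
  rw [map_mul]
  have hb' : V.valuation b ≤ 1 := (ValuationSubring.valuation_le_one_iff V b).mpr hb
  exact mul_lt_one_of_lt_of_le ha hb'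

/-- Horner-type induction: if `x ∈ V` is a root of a polynomial with integral coefficients one of
which is a unit of `V`, then `x = b / s` with `b, s` integral and `s` a unit of `V`. -/
theorem exists_unit_mul_isIntegral_aux (V : ValuationSubring L) (x : L) (hx : x ∈ V) :
    ∀ (n : ℕ) (p : (integralClosure ℤ L)[X]), p.natDegree ≤ n → aeval x p = 0 →
      (∃ i, ((p.coeff i : integralClosure ℤ L) : L) ∉ V.nonunits) →
      ∃ s : L, IsIntegral ℤ s ∧ s ∉ V.nonunits ∧ IsIntegral ℤ (s * x) := by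
  intro n
  induction n with
  | zero =>
    intro p hp h0 ⟨i, hi⟩
    exfalso
    rw [Polynomial.eq_C_of_natDegree_le_zero hp] at h0 hi
    rw [aeval_C] at h0
    have h00 : p.coeff 0 = 0 := by
      apply Subtype.ext
      simpa using h0
    rw [h00] at hi
    apply hi
    simp
  | succ n ih =>
    intro p hp h0 ⟨i, hi⟩
    by_cases hdeg : p.natDegree ≤ n
    · exact ih p hdeg h0 ⟨i, hi⟩
    have hdeg' : p.natDegree = n + 1 := by omega
    set a : integralClosure ℤ L := p.leadingCoeff with ha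
    have hax : IsIntegral ℤ ((a : L) * x) := by
      have h1 : IsIntegral (integralClosure ℤ L) (a • x) := isIntegral_leadingCoeff_smul p x h0
      have h2 : IsIntegral ℤ (a • x) := isIntegral_trans _ h1
      simpa [Algebra.smul_def] using h2
    by_cases hau : (a : L) ∈ V.nonunits
    · -- reduce the degree
      let ax : integralClosure ℤ L := ⟨(a : L) * x, hax⟩
      let p' : (integralClosure ℤ L)[X] := p.eraseLead + C ax * X ^ n
      have hp'deg : p'.natDegree ≤ n := by
        refine (natDegree_add_le _ _).trans (max_le ?_ ?_)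
        · have := eraseLead_natDegree_le p
          omega
        · exact natDegree_C_mul_X_pow_le _ _
      have hp'0 : aeval x p' = 0 := by
        have h1 : aeval x p = aeval x p.eraseLead + (a : L) * x ^ (n + 1) := by
          conv_lhs => rw [← eraseLead_add_C_mul_X_pow p]
          rw [map_add, map_mul, aeval_C, map_pow, aeval_X, hdeg']
          rfl
        have h2 : aeval x p' = aeval x p.eraseLead + ((a : L) * x) * x ^ n := by
          simp only [p', map_add, map_mul, aeval_C, map_pow, aeval_X]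
          rfl
        rw [h2, ← h0, h1]
        ring
      refine ih p' hp'deg hp'0 ⟨i, ?_⟩
      have hi_ne : i ≠ n + 1 := by
        rintro rfl
        apply hi
        rw [← hdeg']
        exact hau
      have hcoeff : p'.coeff i = p.coeff i + (if i = n then ax else 0) := by
        simp only [p', coeff_add, coeff_C_mul_X_pow]
        rw [eraseLead_coeff_of_ne _ (by rw [hdeg']; exact hi_ne)]
      rw [hcoeff]
      split_ifs with hin
      · have : ((p.coeff i + ax : integralClosure ℤ L) : L) = (p.coeff i : L) + (a : L) * x := rfl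
        rw [this]
        exact not_mem_nonunits_add V hi
          (mul_mem_nonunits V hau hx)
      · simpa using hi
    · exact ⟨a, a.2, hau, hax⟩

theorem intCast_not_mem_nonunits (V : ValuationSubring L) {l : ℕ} (hl : l.Prime)
    (hlV : (l : L) ∈ V.nonunits) {c : ℤ} (hc : ¬ (l : ℤ) ∣ c) : (c : L) ∉ V.nonunits := by
  intro hcV
  have hcop : IsCoprime (l : ℤ) c :=
    (Prime.coprime_iff_not_dvd (Nat.prime_iff_prime_int.mp hl)).mpr hc
  obtain ⟨u, v, huv⟩ := hcop
  have h1 : (u : L) * (l : L) + (v : L) * (c : L) = 1 := by exact_mod_cast congrArg (Int.cast : ℤ → L) huv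
  have hu : (l : L) * (u : L) ∈ V.nonunits := mul_mem_nonunits V hlV (intCast_mem V u)
  have hv : (c : L) * (v : L) ∈ V.nonunits := mul_mem_nonunits V hcV (intCast_mem V v)
  rw [ValuationSubring.mem_nonunits_iff] at hu hv
  have h2 : V.valuation 1 < 1 := by
    rw [← h1, mul_comm (u : L), mul_comm (v : L)]
    exact lt_of_le_of_lt (Valuation.map_add _ _ _) (max_lt hu hv)
  simp at h2

/-- Every element of a valuation subring `V` over `l` of an algebraic extension of `ℚ` is a
fraction `b / s` of algebraic integers with `s` a unit in `V`. -/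
theorem exists_unit_mul_isIntegral [Algebra ℚ L] [Algebra.IsAlgebraic ℚ L]
    (V : ValuationSubring L) {l : ℕ} (hl : l.Prime)
    (hlV : (l : L) ∈ V.nonunits) (x : L) (hx : x ∈ V) :
    ∃ s : L, IsIntegral ℤ s ∧ s ∉ V.nonunits ∧ IsIntegral ℤ (s * x) := by
  have : CharZero L := algebraRat.charZero L
  have halg : IsAlgebraic ℤ x :=
    (IsFractionRing.isAlgebraic_iff ℤ ℚ L).mpr (Algebra.IsAlgebraic.isAlgebraic x)
  obtain ⟨p, hp0, hpx⟩ := halg
  have hq0 : aeval x p.primPart = 0 := aeval_primPart_eq_zero hp0 hpx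
  have hprim : p.primPart.IsPrimitive := isPrimitive_primPart p
  obtain ⟨i, hi⟩ : ∃ i, ¬ (l : ℤ) ∣ p.primPart.coeff i := by
    by_contra hcon
    push Not at hcon
    have h1 : C (l : ℤ) ∣ p.primPart := (C_dvd_iff_dvd_coeff _ _).mpr hcon
    have h2 : IsUnit (l : ℤ) := hprim _ h1
    exact (Nat.prime_iff_prime_int.mp hl).not_isUnit h2
  refine exists_unit_mul_isIntegral_aux V x hx _
    (p.primPart.map (algebraMap ℤ (integralClosure ℤ L))) le_rfl ?_ ⟨i, ?_⟩
  · rw [aeval_map_algebraMap]
    exact hq0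
  · rw [coeff_map]
    have : ((algebraMap ℤ (integralClosure ℤ L) (p.primPart.coeff i) : integralClosure ℤ L) : L) =
        ((p.primPart.coeff i : ℤ) : L) := by
      simp
    rw [this]
    exact intCast_not_mem_nonunits V hl hlV hi

end Key

section Action

/-- The ring of all algebraic integers. -/
noncomputable abbrev Zbar : Subalgebra ℤ (AlgebraicClosure ℚ) :=
  integralClosure ℤ (AlgebraicClosure ℚ)

/-- The absolute Galois group of `ℚ`. -/
abbrev GQ : Type := AlgebraicClosure ℚ ≃ₐ[ℚ] AlgebraicClosure ℚ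

instance instIsAlgebraicQbar : Algebra.IsAlgebraic ℚ (AlgebraicClosure ℚ) := by
  have h : (DivisionRing.toRatAlgebra : Algebra ℚ (AlgebraicClosure ℚ)) =
      AlgebraicClosure.instAlgebra ℚ := Subsingleton.elim _ _
  rw [h]
  infer_instance

instance instIsAlgClosureQbar : IsAlgClosure ℚ (AlgebraicClosure ℚ) :=
  ⟨inferInstance, inferInstance⟩

instance instNormalQbar : Normal ℚ (AlgebraicClosure ℚ) := IsAlgClosure.normal ℚ _

instance instIsGaloisQbar : IsGalois ℚ (AlgebraicClosure ℚ) where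

noncomputable instance instActionZbar : MulSemiringAction GQ Zbar where
  smul g b := ⟨g b.1, map_isIntegral_int g b.2⟩
  one_smul _ := rfl
  mul_smul _ _ _ := rfl
  smul_zero g := Subtype.ext (map_zero g)
  smul_add g a b := Subtype.ext (map_add g a.1 b.1)
  smul_one g := Subtype.ext (map_one g)
  smul_mul g a b := Subtype.ext (map_mul g a.1 b.1)

theorem coe_smul_Zbar (g : GQ) (b : Zbar) : ((g • b : Zbar) : AlgebraicClosure ℚ) = g b.1 := rfl

instance instIsInvariantZbar : Algebra.IsInvariant ℤ Zbar GQ where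
  isInvariant b hb := by
    have h1 : (b : AlgebraicClosure ℚ) ∈ Set.range (algebraMap ℚ (AlgebraicClosure ℚ)) :=
      (InfiniteGalois.mem_range_algebraMap_iff_fixed _).mpr
        (fun g => congrArg Subtype.val (hb g))
    obtain ⟨r, hr⟩ := h1
    have h2 : IsIntegral ℤ r := by
      have := b.2
      rw [← hr] at this
      exact (isIntegral_algebraMap_iff (algebraMap ℚ (AlgebraicClosure ℚ)).injective).mp this
    obtain ⟨n, hn⟩ := IsIntegrallyClosed.isIntegral_iff.mp h2
    refine ⟨n, Subtype.ext ?_⟩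
    rw [← hr, ← hn]
    simp

instance instTopZbar : TopologicalSpace Zbar := ⊥

instance instDiscreteZbar : DiscreteTopology Zbar := ⟨rfl⟩

instance instContinuousSMulZbar : ContinuousSMul GQ Zbar := by
  rw [continuousSMul_iff_stabilizer_isOpen]
  intro b
  convert stabilizer_isOpen_of_isIntegral (K := ℚ) (L := AlgebraicClosure ℚ) b.1 using 1
  ext g
  simp only [SetLike.mem_coe, MulAction.mem_stabilizer_iff]
  exact Subtype.ext_iff

end Action

section Final

theorem val_eq_one {L : Type*} [Field L] (V : ValuationSubring L) {s : L} (hs : s ∈ V)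
    (hs' : s ∉ V.nonunits) : V.valuation s = 1 := by
  rw [ValuationSubring.mem_nonunits_iff, not_lt] at hs'
  exact le_antisymm ((ValuationSubring.valuation_le_one_iff V s).mpr hs) hs'

theorem exists_valuationSubring (l : ℕ) (hl : l.Prime) :
    ∃ V : ValuationSubring (AlgebraicClosure ℚ), (l : AlgebraicClosure ℚ) ∈ V.nonunits := by
  let A : Subring (AlgebraicClosure ℚ) := (Int.castRingHom (AlgebraicClosure ℚ)).range
  let lA : A := ⟨(l : AlgebraicClosure ℚ), ⟨(l : ℤ), by simp⟩⟩
  have hI : Ideal.span {lA} ≠ ⊤ := by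
    intro h
    rw [Ideal.span_singleton_eq_top] at h
    obtain ⟨⟨_, ⟨n, rfl⟩⟩, hn⟩ := isUnit_iff_exists_inv.mp h
    have h1 : ((l : ℤ) * n : ℤ) = 1 := by
      have h2 := congrArg Subtype.val hn
      have h3 : ((l : AlgebraicClosure ℚ)) * ((n : ℤ) : AlgebraicClosure ℚ) = 1 := h2
      exact_mod_cast h3
    have h4 : IsUnit (l : ℤ) := IsUnit.of_mul_eq_one _ h1
    exact (Nat.prime_iff_prime_int.mp hl).not_isUnit h4
  obtain ⟨V, -, hV⟩ := Ideal.image_subset_nonunits_valuationSubring _ hI
  exact ⟨V, hV ⟨lA, Ideal.subset_span rfl, rfl⟩⟩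

/-- The prime of `Zbar` cut out by a valuation subring. -/
noncomputable def primeOf (V : ValuationSubring (AlgebraicClosure ℚ)) : Ideal Zbar :=
  (IsLocalRing.maximalIdeal V).comap
    ((algebraMap Zbar (AlgebraicClosure ℚ)).codRestrict V.toSubring
      (fun b => mem_of_isIntegral V b.2))

instance instPrimeOfIsPrime (V : ValuationSubring (AlgebraicClosure ℚ)) : (primeOf V).IsPrime :=
  Ideal.comap_isPrime _ _

theorem mem_primeOf (V : ValuationSubring (AlgebraicClosure ℚ)) (b : Zbar) :
    b ∈ primeOf V ↔ (b : AlgebraicClosure ℚ) ∈ V.nonunits := by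
  rw [primeOf, Ideal.mem_comap, ← ValuationSubring.coe_mem_nonunits_iff]
  rfl

/-- There is an element of the stabilizer of `Q = primeOf V` acting as `x ↦ x ^ l` on `Zbar ⧸ Q`. -/
theorem exists_stabilizer_frobenius (V : ValuationSubring (AlgebraicClosure ℚ)) {l : ℕ}
    (hl : l.Prime) (hlV : (l : AlgebraicClosure ℚ) ∈ V.nonunits) :
    ∃ σ : GQ, σ • primeOf V = primeOf V ∧ ∀ b : Zbar, σ • b - b ^ l ∈ primeOf V := by
  set Q := primeOf V with hQ
  let P : Ideal ℤ := Q.under ℤ
  have hlQ : ((l : ℕ) : Zbar ⧸ Q) = 0 := by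
    have h1 : ((l : ℕ) : Zbar) ∈ Q := by
      rw [hQ, mem_primeOf]
      simpa using hlV
    have h2 := Ideal.Quotient.eq_zero_iff_mem.mpr h1
    simpa using h2
  have hchar : CharP (Zbar ⧸ Q) l := (CharP.charP_iff_prime_eq_zero hl).mpr hlQ
  have : ExpChar (Zbar ⧸ Q) l := .prime hl
  have hbij : Function.Bijective (frobenius (Zbar ⧸ Q) l) := by
    refine ⟨frobenius_inj _ _, ?_⟩
    intro y
    obtain ⟨b, rfl⟩ := Ideal.Quotient.mk_surjective y
    obtain ⟨c, hc⟩ := IsAlgClosed.exists_pow_nat_eq (b : AlgebraicClosure ℚ) hl.pos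
    have hcint : IsIntegral ℤ c := IsIntegral.of_pow hl.pos (hc ▸ b.2)
    refine ⟨Ideal.Quotient.mk Q ⟨c, hcint⟩, ?_⟩
    rw [frobenius_def, ← map_pow]
    congr 1
    exact Subtype.ext hc
  let f : (Zbar ⧸ Q) →ₐ[ℤ ⧸ P] (Zbar ⧸ Q) :=
    { toRingHom := frobenius (Zbar ⧸ Q) l
      commutes' := by
        intro r
        obtain ⟨n, rfl⟩ := Ideal.Quotient.mk_surjective r
        have h1 : algebraMap (ℤ ⧸ P) (Zbar ⧸ Q) (Ideal.Quotient.mk P n) = ((n : ℤ) : Zbar ⧸ Q) := by
          have : Ideal.Quotient.mk P n = ((n : ℤ) : ℤ ⧸ P) := by simp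
          rw [this, map_intCast]
        simp only [RingHom.toMonoidHom_eq_coe, OneHom.toFun_eq_coe, MonoidHom.toOneHom_coe,
          MonoidHom.coe_coe]
        rw [h1, map_intCast] }
  let φ : (Zbar ⧸ Q) ≃ₐ[ℤ ⧸ P] (Zbar ⧸ Q) := AlgEquiv.ofBijective f hbij
  obtain ⟨σ, hσ⟩ := Ideal.Quotient.stabilizerHom_surjective_of_profinite (G := GQ) P Q φ
  refine ⟨σ.1, σ.2, fun b => ?_⟩
  have h1 := DFunLike.congr_fun hσ (Ideal.Quotient.mk Q b)
  rw [Ideal.Quotient.stabilizerHom_apply] at h1
  have h2 : φ (Ideal.Quotient.mk Q b) = Ideal.Quotient.mk Q (b ^ l) := by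
    rw [map_pow]
    rfl
  rw [h2] at h1
  exact Ideal.Quotient.eq.mp h1

/-- An element of the stabilizer of `primeOf V` maps `V` into itself. -/
theorem map_mem_of_stabilizer (V : ValuationSubring (AlgebraicClosure ℚ)) {l : ℕ}
    (hl : l.Prime) (hlV : (l : AlgebraicClosure ℚ) ∈ V.nonunits) (τ : GQ)
    (hτ : τ • primeOf V = primeOf V) (x : AlgebraicClosure ℚ) (hx : x ∈ V) : τ x ∈ V := by
  obtain ⟨s, hs, hsu, hsx⟩ := exists_unit_mul_isIntegral V hl hlV x hx
  have hτs : τ s ∉ V.nonunits := by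
    intro h
    apply hsu
    have h1 : τ • (⟨s, hs⟩ : Zbar) ∈ τ • primeOf V := by
      rw [hτ, mem_primeOf]
      exact h
    rw [Ideal.smul_mem_pointwise_smul_iff, mem_primeOf] at h1
    exact h1
  have hτs1 : V.valuation (τ s) = 1 :=
    val_eq_one V (mem_of_isIntegral V (map_isIntegral_int τ hs)) hτs
  have h2 : τ s * τ x ∈ V := by
    rw [← map_mul]
    exact mem_of_isIntegral V (map_isIntegral_int τ hsx)
  rw [← ValuationSubring.valuation_le_one_iff] at h2 ⊢
  rwa [map_mul, hτs1, one_mul] at h2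

theorem exists_frobenius (l : ℕ) (hl : l.Prime) :
    ∃ (A : ValuationSubring (AlgebraicClosure ℚ))
      (σ : AlgebraicClosure ℚ ≃ₐ[ℚ] AlgebraicClosure ℚ),
      A.LiesOverPrime l ∧ A.IsFrobeniusAt σ l := by
  obtain ⟨V, hlV⟩ := exists_valuationSubring l hl
  obtain ⟨σ, hσQ, hσ⟩ := exists_stabilizer_frobenius V hl hlV
  have hσinv : σ⁻¹ • primeOf V = primeOf V := by
    conv_lhs => rw [← hσQ]
    rw [inv_smul_smul]
  have hdec : σ ∈ V.decompositionSubgroup ℚ := by
    rw [MulAction.mem_stabilizer_iff]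
    apply le_antisymm
    · rw [ValuationSubring.pointwise_smul_subset_iff]
      intro x hx
      rw [ValuationSubring.mem_inv_pointwise_smul_iff]
      exact map_mem_of_stabilizer V hl hlV σ hσQ x hx
    · intro x hx
      rw [ValuationSubring.mem_pointwise_smul_iff_inv_smul_mem]
      exact map_mem_of_stabilizer V hl hlV σ⁻¹ hσinv x hx
  refine ⟨V, σ, hlV, hdec, fun xbar => ?_⟩
  obtain ⟨x, rfl⟩ := IsLocalRing.residue_surjective xbar
  rw [← IsLocalRing.ResidueField.residue_smul, ← map_pow, ← sub_eq_zero, ← map_sub,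
    IsLocalRing.residue_eq_zero_iff, ← ValuationSubring.coe_mem_nonunits_iff]
  change σ (x : AlgebraicClosure ℚ) - (x : AlgebraicClosure ℚ) ^ l ∈ V.nonunits
  obtain ⟨s, hs, hsu, hsx⟩ := exists_unit_mul_isIntegral V hl hlV x x.2
  have hs1 : V.valuation s = 1 := val_eq_one V (mem_of_isIntegral V hs) hsu
  have h1 := (mem_primeOf V _).mp (hσ ⟨s, hs⟩)
  have h2 := (mem_primeOf V _).mp (hσ ⟨s * x, hsx⟩)
  have h1' : σ s - s ^ l ∈ V.nonunits := h1
  have h2' : σ (s * x) - (s * x) ^ l ∈ V.nonunits := h2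
  have hσs1 : V.valuation (σ s) = 1 := by
    refine val_eq_one V (mem_of_isIntegral V (map_isIntegral_int σ hs)) ?_
    have h3 : σ s = s ^ l + (σ s - s ^ l) := by ring
    rw [h3]
    refine not_mem_nonunits_add V ?_ h1'
    rw [ValuationSubring.mem_nonunits_iff, map_pow, hs1, one_pow]
    exact lt_irrefl _
  have hkey : (σ (x : AlgebraicClosure ℚ) - (x : AlgebraicClosure ℚ) ^ l) * σ s =
      (σ (s * x) - (s * x) ^ l) + (-(σ s - s ^ l)) * (x : AlgebraicClosure ℚ) ^ l := by
    rw [map_mul]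
    ring
  have h4 : (σ (x : AlgebraicClosure ℚ) - (x : AlgebraicClosure ℚ) ^ l) * σ s ∈ V.nonunits := by
    rw [hkey]
    exact add_mem h2' (mul_mem_nonunits V (neg_mem h1') (pow_mem x.2 l))
  rw [ValuationSubring.mem_nonunits_iff] at h4 ⊢
  rwa [map_mul, hσs1, mul_one] at h4

end Final

end Fermat.Agent.S54.Frob95
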